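import Mathlib
import Fermat.Agent.S59.H67.NCDefs

/-!
# Row S59, piece N1-C (helper360): the finite flat side of the numerical criterion

Statements verbatim from helper67's skeleton (`Fermat/Agent/S59/H67/NCSkeleton.lean`):
* `eq_of_mem_annihilator_of_map_eq` (C1),
* `exists_adapted_generators` (C2),
* `card_quot_etaIdeal_le` (C3).
-/

set_option autoImplicit false
set_option linter.unusedSectionVars false
set_option linter.unusedVariables false

namespace Fermat.Agent.S59.H360

open IsLocalRing Fermat.Agent.S59.H67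

/-- **C1**. If `η ≠ 0` and `T` is torsion-free, `π` is injective on `Ann (ker π)`. -/
theorem eq_of_mem_annihilator_of_map_eq
    {O : Type*} [CommRing O] [IsDomain O]
    {T : Type*} [CommRing T] [Algebra O T] [Module.IsTorsionFree O T]
    (π : T →ₐ[O] O) (hη : etaIdeal π ≠ ⊥) {x y : T}
    (hx : x ∈ (RingHom.ker π).annihilator) (hy : y ∈ (RingHom.ker π).annihilator)
    (hxy : π x = π y) : x = y := by
  obtain ⟨w, hw, hπw⟩ : ∃ w ∈ (RingHom.ker π).annihilator, π w ≠ 0 := by
    by_contra hcon
    push Not at hcon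
    apply hη
    rw [etaIdeal, Ideal.map_eq_bot_iff_le_ker]
    intro w hw
    exact RingHom.mem_ker.mpr (hcon w hw)
  have hz_ann : x - y ∈ (RingHom.ker π).annihilator := Submodule.sub_mem _ hx hy
  have hz_ker : x - y ∈ RingHom.ker π := by
    rw [RingHom.mem_ker, map_sub, sub_eq_zero]; exact hxy
  have h1 : w * (x - y) = 0 := by
    have := (Submodule.mem_annihilator.mp hw) (x - y) hz_ker
    simpa using this
  have hmem : w - algebraMap O T (π w) ∈ RingHom.ker π := by
    rw [RingHom.mem_ker, map_sub, sub_eq_zero]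
    exact (π.commutes (π w)).symm
  have h2 : (x - y) * (w - algebraMap O T (π w)) = 0 := by
    have := (Submodule.mem_annihilator.mp hz_ann) _ hmem
    simpa using this
  have h3 : (π w) • (x - y) = 0 := by
    rw [Algebra.smul_def]
    linear_combination h1 - h2
  exact sub_eq_zero.mp ((smul_eq_zero_iff_right hπw).mp h3)

section Card

variable {O : Type*} [CommRing O] [IsDomain O]

/-- `#(O/(ab)) = #(O/(a)) · #(O/(b))` in a domain (`Nat.card`, no finiteness needed). -/
theorem card_quot_span_mul (a b : O) (ha : a ≠ 0) :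
    Nat.card (O ⧸ Ideal.span {a * b}) =
      Nat.card (O ⧸ Ideal.span {a}) * Nat.card (O ⧸ Ideal.span {b}) := by
  -- `g : O/(ab) → O/(a)`
  have hle : Ideal.span {a * b} ≤ Ideal.span {a} := by
    rw [Ideal.span_singleton_le_iff_mem]
    exact Ideal.mul_mem_right _ _ (Ideal.mem_span_singleton_self a)
  let g : (O ⧸ Ideal.span {a * b}) →+ (O ⧸ Ideal.span {a}) :=
    (Ideal.Quotient.factor hle : (O ⧸ Ideal.span {a * b}) →+* (O ⧸ Ideal.span {a})).toAddMonoidHom
  have hg : Function.Surjective g := Ideal.Quotient.factor_surjective hle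
  -- `f : O/(b) → O/(ab)`, multiplication by `a`
  let f : (O ⧸ Ideal.span {b}) →ₗ[O] (O ⧸ Ideal.span {a * b}) :=
    Submodule.mapQ (Ideal.span {b}) (Ideal.span {a * b}) (LinearMap.mulLeft O a) (by
      intro x hx
      obtain ⟨c, rfl⟩ := Ideal.mem_span_singleton.mp hx
      rw [Submodule.mem_comap, LinearMap.mulLeft_apply, Ideal.mem_span_singleton]
      exact ⟨c, by ring⟩)
  have hf : Function.Injective f := by
    rw [injective_iff_map_eq_zero]
    intro x hx
    obtain ⟨x, rfl⟩ := Submodule.Quotient.mk_surjective _ x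
    rw [Submodule.mapQ_apply, Submodule.Quotient.mk_eq_zero, LinearMap.mulLeft_apply,
      Ideal.mem_span_singleton] at hx
    obtain ⟨c, hc⟩ := hx
    rw [Submodule.Quotient.mk_eq_zero, Ideal.mem_span_singleton]
    refine ⟨c, mul_left_cancel₀ ha ?_⟩
    rw [hc]; ring
  have hker : (g.ker : Set (O ⧸ Ideal.span {a * b})) = Set.range f := by
    ext z
    obtain ⟨z, rfl⟩ := Ideal.Quotient.mk_surjective z
    simp only [SetLike.mem_coe, AddMonoidHom.mem_ker, Set.mem_range]
    constructor
    · intro hz
      have hz' : (Ideal.Quotient.mk (Ideal.span {a})) z = 0 := hz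
      rw [Ideal.Quotient.eq_zero_iff_mem, Ideal.mem_span_singleton] at hz'
      obtain ⟨c, rfl⟩ := hz'
      exact ⟨Submodule.Quotient.mk c, rfl⟩
    · rintro ⟨w, hw⟩
      obtain ⟨w, rfl⟩ := Submodule.Quotient.mk_surjective _ w
      rw [← hw]
      show (Ideal.Quotient.mk (Ideal.span {a})) (a * w) = 0
      rw [Ideal.Quotient.eq_zero_iff_mem]
      exact Ideal.mul_mem_right _ _ (Ideal.mem_span_singleton_self a)
  have h1 : Nat.card g.ker * g.ker.index = Nat.card (O ⧸ Ideal.span {a * b}) :=
    AddSubgroup.card_mul_index _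
  rw [AddSubgroup.index_ker, AddMonoidHom.range_eq_top.mpr hg] at h1
  have h2 : Nat.card g.ker = Nat.card (O ⧸ Ideal.span {b}) := by
    have e1 : Nat.card g.ker = Nat.card (Set.range f) := by
      rw [← hker]; rfl
    rw [e1]
    exact (Nat.card_congr (Equiv.ofInjective f hf)).symm
  have h3 : Nat.card (⊤ : AddSubgroup (O ⧸ Ideal.span {a})) = Nat.card (O ⧸ Ideal.span {a}) :=
    Nat.card_congr AddSubgroup.topEquiv.toEquiv
  rw [h2, h3] at h1
  rw [← h1, mul_comm]

/-- `#(O/(∏ c_i)) = ∏ #(O/(c_i))` for nonzero `c_i` in a domain. -/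
theorem card_quot_span_prod {ι : Type*} (s : Finset ι) (c : ι → O) (hc : ∀ i ∈ s, c i ≠ 0) :
    Nat.card (O ⧸ Ideal.span {∏ i ∈ s, c i}) = ∏ i ∈ s, Nat.card (O ⧸ Ideal.span {c i}) := by
  classical
  induction s using Finset.induction_on with
  | empty =>
    rw [Finset.prod_empty, Finset.prod_empty, Ideal.span_singleton_one]
    exact Nat.card_unique
  | insert i s hi ih =>
    rw [Finset.prod_insert hi, Finset.prod_insert hi,
      card_quot_span_mul _ _ (hc i (Finset.mem_insert_self i s)),
      ih fun j hj => hc j (Finset.mem_insert_of_mem hj)]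

end Card

section Adapted

variable {O : Type*} [CommRing O] [IsDomain O] [IsDiscreteValuationRing O]
  [Finite (ResidueField O)]
  {T : Type*} [CommRing T] [IsLocalRing T] [Algebra O T] [Module.Finite O T] [Module.Free O T]

omit [Finite (ResidueField O)] [IsLocalRing T] [Module.Finite O T] [Module.Free O T] in
/-- a finite module over a DVR is torsion. -/
lemma isTorsion_of_finite (M : Type*) [AddCommGroup M] [Module O M] [Finite M] :
    Module.IsTorsion O M := by
  have hOinf : Infinite O := by
    by_contra hfin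
    rw [not_infinite_iff_finite] at hfin
    exact IsDiscreteValuationRing.not_isField O (Finite.isField_of_domain O)
  intro x
  obtain ⟨a, b, hab, heq⟩ := Finite.exists_ne_map_eq_of_infinite (fun a : O => a • x)
  refine ⟨⟨a - b, mem_nonZeroDivisors_of_ne_zero (sub_ne_zero.mpr hab)⟩, ?_⟩
  show (a - b) • x = 0
  rw [sub_smul, sub_eq_zero]
  exact heq

omit [Finite (ResidueField O)] [Module.Free O T] in
/-- **C2**, minimal hypotheses. -/
theorem exists_adapted_generators_aux
    (π : T →ₐ[O] O) [Finite (RingHom.ker π).Cotangent] :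
    ∃ (n : ℕ) (y : Fin n → T) (c : Fin n → O) (p : Matrix (Fin n) (Fin n) T),
      (∀ i, π (y i) = 0) ∧ Ideal.span (Set.range y) = RingHom.ker π ∧
      (∀ i j, π (p i j) = 0) ∧ (∀ i, c i • y i = ∑ j, p i j * y j) ∧
      (∏ i, c i) ≠ 0 ∧
      Nat.card (RingHom.ker π).Cotangent = Nat.card (O ⧸ Ideal.span {∏ i, c i}) := by
  classical
  have htors : Module.IsTorsion O (RingHom.ker π).Cotangent := isTorsion_of_finite _
  have hfinM : Module.Finite O (RingHom.ker π).Cotangent := Module.Finite.of_finite
  obtain ⟨ι, hι, q, hq, e, ⟨E⟩⟩ := Module.equiv_directSum_of_isTorsion htors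
  -- reindex by `Fin n`
  let σ : ι ≃ Fin (Fintype.card ι) := Fintype.equivFin ι
  let c : Fin (Fintype.card ι) → O := fun i => q (σ.symm i) ^ e (σ.symm i)
  let g0 : ι → (RingHom.ker π).Cotangent := fun j =>
    E.symm (DirectSum.lof O ι (fun j => O ⧸ Submodule.span O {q j ^ e j}) j
      (Submodule.Quotient.mk 1))
  let gΦ : Fin (Fintype.card ι) → (RingHom.ker π).Cotangent := fun i => g0 (σ.symm i)
  have hc : ∀ i, c i ≠ 0 := fun i => pow_ne_zero _ (hq _).ne_zero
  -- `c i` kills `gΦ i`
  have hcg : ∀ i, c i • gΦ i = 0 := by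
    intro i
    show c i • E.symm _ = 0
    rw [← map_smul, ← map_smul, ← Submodule.Quotient.mk_smul, smul_eq_mul, mul_one]
    have : (Submodule.Quotient.mk (c i) : O ⧸ Submodule.span O {q (σ.symm i) ^ e (σ.symm i)}) = 0 := by
      rw [Submodule.Quotient.mk_eq_zero]
      exact Submodule.mem_span_singleton_self _
    rw [this, map_zero, map_zero]
  -- the `gΦ i` span
  have hspan : ∀ z : (RingHom.ker π).Cotangent, z ∈ Submodule.span O (Set.range gΦ) := by
    intro z
    obtain ⟨w, rfl⟩ := E.symm.surjective z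
    induction w using DirectSum.induction_on with
    | zero => rw [map_zero]; exact Submodule.zero_mem _
    | of i x =>
      obtain ⟨a, rfl⟩ := Submodule.Quotient.mk_surjective _ x
      have h1 : (Submodule.Quotient.mk a : O ⧸ Submodule.span O {q i ^ e i})
          = a • Submodule.Quotient.mk 1 := by
        rw [← Submodule.Quotient.mk_smul, smul_eq_mul, mul_one]
      have h2 : E.symm (DirectSum.of (fun j => O ⧸ Submodule.span O {q j ^ e j}) i
          (Submodule.Quotient.mk a)) = a • g0 i := by
        show _ = a • E.symm _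
        rw [← map_smul, ← map_smul, ← h1]
        rfl
      have h3 : g0 i = gΦ (σ i) := by
        show g0 i = g0 (σ.symm (σ i))
        rw [Equiv.symm_apply_apply]
      rw [h2, h3]
      exact Submodule.smul_mem _ _ (Submodule.subset_span ⟨σ i, rfl⟩)
    | add x y hx hy => rw [map_add]; exact Submodule.add_mem _ hx hy
  -- lifts
  choose y' hy' using fun i => (RingHom.ker π).toCotangent_surjective (gΦ i)
  let y : Fin (Fintype.card ι) → T := fun i => (y' i : T)
  have hyker : ∀ i, y i ∈ RingHom.ker π := fun i => (y' i).2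
  have hle : Ideal.span (Set.range y) ≤ RingHom.ker π := by
    rw [Ideal.span_le]
    rintro _ ⟨i, rfl⟩
    exact hyker i
  -- Nakayama
  have hNoeth : IsNoetherianRing T := IsNoetherianRing.of_finite O T
  have hne_top : RingHom.ker π ≠ ⊤ := RingHom.ker_ne_top _
  have hge : RingHom.ker π ≤ Ideal.span (Set.range y) := by
    refine Submodule.le_of_le_smul_of_le_jacobson_bot (IsNoetherian.noetherian _)
      (I := RingHom.ker π) ?_ ?_
    · rw [IsLocalRing.jacobson_eq_maximalIdeal ⊥ bot_ne_top]
      exact IsLocalRing.le_maximalIdeal hne_top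
    · intro x hx
      obtain ⟨a, ha⟩ := (Submodule.mem_span_range_iff_exists_fun O).mp
        (hspan ((RingHom.ker π).toCotangent ⟨x, hx⟩))
      have h1 : (RingHom.ker π).toCotangent ⟨x, hx⟩
          = (RingHom.ker π).toCotangent (∑ i, a i • y' i) := by
        rw [← ha, map_sum]
        refine Finset.sum_congr rfl fun i _ => ?_
        rw [LinearMap.map_smul_of_tower, hy']
      rw [Ideal.toCotangent_eq] at h1
      have h2 : x = (∑ i, a i • y i) + (x - ∑ i, a i • y i) := by ring
      rw [h2]
      refine Submodule.add_mem_sup ?_ ?_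
      · refine Submodule.sum_mem _ fun i _ => ?_
        rw [Algebra.smul_def]
        exact Ideal.mul_mem_left _ _ (Ideal.subset_span ⟨i, rfl⟩)
      · rw [smul_eq_mul, ← pow_two]
        convert h1 using 2
        simp only [y, AddSubmonoidClass.coe_finsetSum, Submodule.coe_smul_of_tower]
  have hspan_eq : Ideal.span (Set.range y) = RingHom.ker π := le_antisymm hle hge
  -- the relations
  have hrel : ∀ i, ∃ a : Fin (Fintype.card ι) → T, (∀ j, a j ∈ RingHom.ker π) ∧
      c i • y i = ∑ j, a j * y j := by
    intro i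
    have h1 : (RingHom.ker π).toCotangent (c i • y' i) = 0 := by
      rw [LinearMap.map_smul_of_tower, hy', hcg]
    rw [Ideal.toCotangent_eq_zero] at h1
    have h2 : (c i • y i : T) ∈ RingHom.ker π • Submodule.span T (Set.range y) := by
      have h3 : (Submodule.span T (Set.range y) : Submodule T T) = RingHom.ker π := hspan_eq
      rw [h3, smul_eq_mul, ← pow_two]
      exact h1
    obtain ⟨a, ha, hsum⟩ := (Submodule.mem_ideal_smul_span_iff_exists_sum _ _ _).mp h2
    refine ⟨a, ha, ?_⟩
    rw [← hsum, Finsupp.sum_fintype a (fun i c => c • y i) (fun i => zero_smul T (y i))]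
    simp only [smul_eq_mul]
  choose pm hpm hpm' using hrel
  refine ⟨Fintype.card ι, y, c, Matrix.of pm, fun i => RingHom.mem_ker.mp (hyker i), hspan_eq,
    fun i j => RingHom.mem_ker.mp (hpm i j), fun i => by simpa using hpm' i,
    Finset.prod_ne_zero_iff.mpr fun i _ => hc i, ?_⟩
  -- cardinality
  rw [card_quot_span_prod _ _ fun i _ => hc i]
  rw [Nat.card_congr (E.toEquiv.trans
    (DirectSum.linearEquivFunOnFintype O ι (fun j => O ⧸ Submodule.span O {q j ^ e j})).toEquiv),
    Nat.card_pi]
  exact (Fintype.prod_equiv σ.symm _ _ fun i => rfl).symm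

omit [Finite (ResidueField O)] [Module.Free O T] in
/-- **C3**, minimal hypotheses. -/
theorem card_quot_etaIdeal_le_aux
    (π : T →ₐ[O] O) [Finite (RingHom.ker π).Cotangent] :
    etaIdeal π ≠ ⊥ ∧ Nat.card (O ⧸ etaIdeal π) ≤ Nat.card (RingHom.ker π).Cotangent := by
  classical
  obtain ⟨n, y, c, p, hy, hspan, hp, hrel, hprod, hcard⟩ := exists_adapted_generators_aux π
  let g : Matrix (Fin n) (Fin n) T := Matrix.diagonal (fun i => algebraMap O T (c i)) - p
  have hgy : g.mulVec y = 0 := by
    ext i
    have h1 : (Matrix.diagonal (fun i => algebraMap O T (c i))).mulVec y i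
        = algebraMap O T (c i) * y i := Matrix.mulVec_diagonal _ _ _
    have h2 : p.mulVec y i = ∑ j, p i j * y j := rfl
    rw [Matrix.sub_mulVec, Pi.sub_apply, h1, h2, ← Algebra.smul_def, hrel i, sub_self]
    rfl
  have hdet : ∀ i, g.det * y i = 0 := by
    intro i
    have h1 : (g.adjugate * g).mulVec y = 0 := by
      rw [← Matrix.mulVec_mulVec, hgy, Matrix.mulVec_zero]
    rw [Matrix.adjugate_mul, Matrix.smul_mulVec, Matrix.one_mulVec] at h1
    have := congrFun h1 i
    simpa using this
  have hann : g.det ∈ (RingHom.ker π).annihilator := by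
    rw [← hspan, Submodule.mem_annihilator_span]
    rintro ⟨_, i, rfl⟩
    exact hdet i
  have hπdet : π g.det = ∏ i, c i := by
    have h1 : π g.det = ((π : T →+* O).mapMatrix g).det := RingHom.map_det (π : T →+* O) g
    have h2 : (π : T →+* O).mapMatrix g = Matrix.diagonal c := by
      ext i j
      simp only [g, RingHom.mapMatrix_apply, Matrix.map_apply, Matrix.sub_apply,
        Matrix.diagonal_apply]
      split_ifs with hij
      · simp [hp]
      · simp [hp]
    rw [h1, h2, Matrix.det_diagonal]
  have hmem : (∏ i, c i) ∈ etaIdeal π := by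
    rw [← hπdet]
    exact Ideal.mem_map_of_mem _ hann
  refine ⟨fun h => hprod ?_, ?_⟩
  · rw [h] at hmem
    exact hmem
  · rw [hcard]
    have hle : Ideal.span {∏ i, c i} ≤ etaIdeal π :=
      (Ideal.span_singleton_le_iff_mem _).mpr hmem
    have hfin : Finite (O ⧸ Ideal.span {∏ i, c i}) :=
      Nat.finite_of_card_ne_zero (by rw [← hcard]; exact Nat.card_pos.ne')
    exact Nat.card_le_card_of_surjective _ (Ideal.Quotient.factor_surjective hle)

end Adapted

/-! ### the statements of the skeleton, verbatim -/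

/-- **C2** (adapted generators + Fitting inequality).  For `T` local, finite free over the DVR
`O`, with finite cotangent space `Φ = 𝔭/𝔭²`: there are `y_i ∈ 𝔭` generating the ideal `𝔭`,
and `c_i ∈ O`, `p_ij ∈ 𝔭` with `c_i y_i = ∑_j p_ij y_j`, such that
`#Φ = #(O ⧸ (∏ c_i))`; in particular `∏ c_i ∈ η` and `#(O ⧸ η) ≤ #Φ`. -/
theorem exists_adapted_generators
    {O : Type*} [CommRing O] [IsDomain O] [IsDiscreteValuationRing O] [Finite (ResidueField O)]
    {T : Type*} [CommRing T] [IsLocalRing T] [Algebra O T] [Module.Finite O T] [Module.Free O T]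
    (π : T →ₐ[O] O) [Finite (RingHom.ker π).Cotangent] :
    ∃ (n : ℕ) (y : Fin n → T) (c : Fin n → O) (p : Matrix (Fin n) (Fin n) T),
      (∀ i, π (y i) = 0) ∧ Ideal.span (Set.range y) = RingHom.ker π ∧
      (∀ i j, π (p i j) = 0) ∧ (∀ i, c i • y i = ∑ j, p i j * y j) ∧
      (∏ i, c i) ≠ 0 ∧
      Nat.card (RingHom.ker π).Cotangent = Nat.card (O ⧸ Ideal.span {∏ i, c i}) :=
  exists_adapted_generators_aux π

/-- **C3** (Fitting inequality `Fitt Φ_T ⊆ η_T`, cardinality form). -/
theorem card_quot_etaIdeal_le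
    {O : Type*} [CommRing O] [IsDomain O] [IsDiscreteValuationRing O] [Finite (ResidueField O)]
    {T : Type*} [CommRing T] [IsLocalRing T] [Algebra O T] [Module.Finite O T] [Module.Free O T]
    (π : T →ₐ[O] O) [Finite (RingHom.ker π).Cotangent] :
    etaIdeal π ≠ ⊥ ∧ Nat.card (O ⧸ etaIdeal π) ≤ Nat.card (RingHom.ker π).Cotangent :=
  card_quot_etaIdeal_le_aux π

end Fermat.Agent.S59.H360
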