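import Fermat.Agent.S59.H360.TateFree
import Fermat.Prelude.Def_GaloisRep_Adic

/-!
# S59, E-side (helper360): the Tate module as a `GaloisRepAdic ℤ_[p]`

`G` acts on the abelian group `E` by additive automorphisms.  Then `G` acts `ℤ_[p]`-linearly on
`T_p E`, componentwise.  For `G = Gal(ℚ̄/ℚ)`, under the cardinality hypothesis `TorsCard p E` and
the finite-level hypothesis `TorsFiniteLevel p E`, this is a `GaloisRepAdic ℤ_[p]`
(`tateRepOf`), with componentwise transfer lemmas.
-/

set_option autoImplicit false
set_option linter.unusedSectionVars false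

namespace Fermat.Agent.S59.H360

open PadicInt

section Action

variable {p : ℕ} [hp : Fact p.Prime] {E : Type*} [AddCommGroup E]
  {G : Type*} [Monoid G] [DistribMulAction G E]

lemma smul_nsmul_comm (σ : G) (a : ℕ) (x : E) : σ • (a • x) = a • (σ • x) :=
  map_nsmul (DistribSMul.toAddMonoidHom E σ) a x

instance instSMulTateG : SMul G (tateSub p E) where
  smul σ f := ⟨fun n => σ • f.1 n, fun n =>
    ⟨by rw [← smul_nsmul_comm, tateSub_pow_smul, smul_zero],
     by rw [← smul_nsmul_comm, tateSub_p_smul]⟩⟩

lemma tate_gsmul_apply (σ : G) (f : tateSub p E) (n : ℕ) : (σ • f).1 n = σ • f.1 n := rfl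

instance instDistribMulActionTateG : DistribMulAction G (tateSub p E) where
  one_smul f := tateSub_ext fun n => one_smul G (f.1 n)
  mul_smul σ τ f := tateSub_ext fun n => mul_smul σ τ (f.1 n)
  smul_zero σ := tateSub_ext fun _ => smul_zero σ
  smul_add σ f g := tateSub_ext fun n => smul_add σ (f.1 n) (g.1 n)

variable (p E) in
/-- The action of `G` on the Tate module, as a monoid homomorphism into the linear
endomorphisms. -/
noncomputable def tateAction : G →* Module.End ℤ_[p] (tateSub p E) where
  toFun σ :=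
    { toFun := fun f => σ • f
      map_add' := fun f g => smul_add σ f g
      map_smul' := fun _ _ => tateSub_ext fun _ => smul_nsmul_comm σ _ _ }
  map_one' := LinearMap.ext fun f => one_smul G f
  map_mul' σ τ := LinearMap.ext fun f => mul_smul σ τ f

@[simp] lemma tateAction_apply (σ : G) (f : tateSub p E) : tateAction p E σ f = σ • f := rfl

lemma tateAction_apply_coe (σ : G) (f : tateSub p E) (n : ℕ) :
    (tateAction p E σ f).1 n = σ • f.1 n := rfl

/-- If `σ` fixes `E[p^n]` pointwise then `σ - 1` maps `T_p E` into `𝔪^n • T_p E`. -/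
theorem tateAction_sub_mem (σ : G) (n : ℕ) (hσ : ∀ x : E, p ^ n • x = 0 → σ • x = x)
    (f : tateSub p E) :
    tateAction p E σ f - f ∈
      (IsLocalRing.maximalIdeal ℤ_[p] ^ n) • (⊤ : Submodule ℤ_[p] (tateSub p E)) := by
  have h0 : (tateAction p E σ f - f).1 n = 0 := by
    rw [tateSub_coe_sub, tateAction_apply_coe, hσ _ (tateSub_pow_smul f n), sub_self]
  obtain ⟨g, hg⟩ := (tateProj_eq_zero_iff n _).mp h0
  rw [← hg]
  refine Submodule.smul_mem_smul (Ideal.pow_mem_pow ?_ n) Submodule.mem_top
  rw [PadicInt.maximalIdeal_eq_span_p]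
  exact Ideal.subset_span rfl

/-- If `σ` fixes all `p`-power torsion then `σ` acts trivially on `T_p E`. -/
theorem tateAction_eq_one (σ : G) (hσ : ∀ (n : ℕ) (x : E), p ^ n • x = 0 → σ • x = x) :
    tateAction p E σ = 1 :=
  LinearMap.ext fun f => tateSub_ext fun n => hσ n _ (tateSub_pow_smul f n)

/-- Transfer of a quadratic relation from the torsion points to the Tate module. -/
theorem tateAction_quadratic (σ : G) (a b : ℤ)
    (hσ : ∀ (n : ℕ) (x : E), p ^ n • x = 0 → σ • σ • x - a • σ • x + b • x = 0) :
    tateAction p E σ * tateAction p E σ - (a : ℤ_[p]) • tateAction p E σ + (b : ℤ_[p]) • 1 = 0 := by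
  refine LinearMap.ext fun f => tateSub_ext fun n => ?_
  have key : ∀ (c : ℤ) (g : tateSub p E), ((c : ℤ_[p]) • g).1 n = c • g.1 n := by
    intro c g
    rcases Int.eq_nat_or_neg c with ⟨m, rfl | rfl⟩
    · rw [Int.cast_natCast, tate_natCast_smul_apply, natCast_zsmul]
    · rw [Int.cast_neg, Int.cast_natCast, neg_smul, neg_smul, tateSub_coe_neg,
        tate_natCast_smul_apply, natCast_zsmul]
  simp only [LinearMap.add_apply, LinearMap.sub_apply, LinearMap.smul_apply, Module.End.mul_apply,
    Module.End.one_apply, LinearMap.zero_apply, tateAction_apply, tateSub_coe_add,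
    tateSub_coe_sub, tateSub_coe_zero, key, tate_gsmul_apply]
  exact hσ n _ (tateSub_pow_smul f n)

end Action

section Galois

local notation "GQ" => (AlgebraicClosure ℚ ≃ₐ[ℚ] AlgebraicClosure ℚ)

variable (p : ℕ) [hp : Fact p.Prime] (E : Type) [AddCommGroup E] [DistribMulAction GQ E]

/-- Every level `E[p^n]` is fixed pointwise by the Galois group of a finite extension. -/
def TorsFiniteLevel : Prop :=
  ∀ n : ℕ, ∃ L : IntermediateField ℚ (AlgebraicClosure ℚ), FiniteDimensional ℚ L ∧
    ∀ σ : GQ, (∀ x ∈ L, σ x = x) → ∀ x : E, p ^ n • x = 0 → σ • x = x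

variable {p E}

/-- **The Tate module as an adic Galois representation.** -/
noncomputable def tateRepOf (h : TorsCard p E) (hfl : TorsFiniteLevel p E) :
    GaloisRepAdic ℤ_[p] where
  V := tateSub p E
  instFree := tate_free h
  instFinite := tate_finite h
  finrank_eq := tate_finrank h
  ρ := tateAction p E
  isAdicContinuous := fun n => by
    obtain ⟨L, hL, hfix⟩ := hfl n
    exact ⟨L, hL, fun σ hσ v => tateAction_sub_mem σ n (hfix σ hσ) v⟩

@[simp] lemma tateRepOf_V (h : TorsCard p E) (hfl : TorsFiniteLevel p E) :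
    (tateRepOf h hfl).V = tateSub p E := rfl

lemma tateRepOf_ρ (h : TorsCard p E) (hfl : TorsFiniteLevel p E) :
    (tateRepOf h hfl).ρ = tateAction p E := rfl

end Galois

end Fermat.Agent.S59.H360
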