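import Fermat.Agent.S59.H360.TateModule

/-!
# S59, E-side (helper360): the abstract Tate module is free of rank 2

Hypothesis: `Nat.card E[p^n] = p^(2n)` for all `n`.  Then multiplication by `p` maps `E[p^(n+1)]`
onto `E[p^n]`, every `p^n`-torsion point lifts to `T_p E`, and `T_p E` is free of rank 2 over `ℤ_[p]`.
-/

set_option autoImplicit false
set_option linter.unusedSectionVars false

namespace Fermat.Agent.S59.H360

open PadicInt

section Torsion

variable (p : ℕ) (E : Type*) [AddCommGroup E]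

/-- `E[p^n]` as a subgroup of `E`. -/
def tors (n : ℕ) : AddSubgroup E := (nsmulAddMonoidHom (p ^ n) : E →+ E).ker

variable {p E}

lemma mem_tors {n : ℕ} {x : E} : x ∈ tors p E n ↔ p ^ n • x = 0 := by
  rw [tors, AddMonoidHom.mem_ker, nsmulAddMonoidHom_apply]

variable (p E) in
/-- multiplication by `p` from `E[p^(n+1)]` to `E[p^n]`. -/
def torsMulP (n : ℕ) : tors p E (n + 1) →+ tors p E n where
  toFun y := ⟨p • y.1, by
    rw [mem_tors, ← mul_smul, ← pow_succ]; exact mem_tors.mp y.2⟩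
  map_zero' := by ext; simp
  map_add' a b := by ext; simp [smul_add]

@[simp] lemma torsMulP_coe (n : ℕ) (y : tors p E (n + 1)) :
    ((torsMulP p E n y : tors p E n) : E) = p • (y : E) := rfl

variable (p E) in
/-- the kernel of `torsMulP` is `E[p]`. -/
def kerTorsMulPEquiv (n : ℕ) : (torsMulP p E n).ker ≃ tors p E 1 where
  toFun y := ⟨y.1.1, by
    rw [mem_tors, pow_one]
    have h := y.2
    rw [AddMonoidHom.mem_ker] at h
    exact congrArg Subtype.val h⟩
  invFun x := ⟨⟨x.1, by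
      rw [mem_tors, pow_succ, mul_smul]
      have h := mem_tors.mp x.2
      rw [pow_one] at h
      rw [h, smul_zero]⟩, by
    rw [AddMonoidHom.mem_ker]
    ext
    have h := mem_tors.mp x.2
    rw [pow_one] at h
    simpa using h⟩
  left_inv y := by ext; rfl
  right_inv x := by ext; rfl

end Torsion

section Free

variable {p : ℕ} [hp : Fact p.Prime] {E : Type*} [AddCommGroup E]

/-- the cardinality hypothesis. -/
def TorsCard (p : ℕ) (E : Type*) [AddCommGroup E] : Prop :=
  ∀ n : ℕ, Nat.card (tors p E n) = p ^ (2 * n)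

lemma TorsCard.finite (h : TorsCard p E) (n : ℕ) : Finite (tors p E n) :=
  Nat.finite_of_card_ne_zero (by rw [h n]; exact pow_ne_zero _ hp.out.ne_zero)

lemma torsMulP_surjective (h : TorsCard p E) (n : ℕ) :
    Function.Surjective (torsMulP p E n) := by
  have := h.finite n
  have := h.finite (n + 1)
  have h1 : Nat.card (torsMulP p E n).ker * (torsMulP p E n).ker.index
      = Nat.card (tors p E (n + 1)) := AddSubgroup.card_mul_index _
  rw [AddSubgroup.index_ker, Nat.card_congr (kerTorsMulPEquiv p E n), h 1, h (n + 1)] at h1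
  have h2 : Nat.card (torsMulP p E n).range = p ^ (2 * n) := by
    have h3 : p ^ (2 * (n + 1)) = p ^ (2 * 1) * p ^ (2 * n) := by rw [← pow_add]; ring_nf
    rw [h3] at h1
    exact Nat.eq_of_mul_eq_mul_left (pow_pos hp.out.pos _) h1
  have h4 : (torsMulP p E n).range = ⊤ :=
    AddSubgroup.eq_top_of_card_eq _ (by rw [h2, h n])
  exact AddMonoidHom.range_eq_top.mp h4

/-- `p`-power torsion is `p`-divisible. -/
theorem exists_p_smul_eq (h : TorsCard p E) {n : ℕ} {x : E} (hx : p ^ n • x = 0) :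
    ∃ y : E, p • y = x := by
  obtain ⟨y, hy⟩ := torsMulP_surjective h n ⟨x, mem_tors.mpr hx⟩
  exact ⟨y.1, congrArg Subtype.val hy⟩

open Classical in
/-- a section of multiplication by `p`. -/
noncomputable def divP (p : ℕ) {E : Type*} [AddCommGroup E] (x : E) : E :=
  if h : ∃ y : E, p • y = x then h.choose else 0

lemma p_smul_divP (h : TorsCard p E) {n : ℕ} {x : E} (hx : p ^ n • x = 0) :
    p • divP p x = x := by
  have hex := exists_p_smul_eq h hx
  rw [divP, dif_pos hex]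
  exact hex.choose_spec

lemma pow_smul_iterate_divP (h : TorsCard p E) {n : ℕ} {x : E} (hx : p ^ n • x = 0) (k : ℕ) :
    p ^ (n + k) • (divP p)^[k] x = 0 := by
  induction k with
  | zero => simpa using hx
  | succ k ih =>
    rw [Function.iterate_succ_apply', ← add_assoc, pow_succ, mul_smul, p_smul_divP h ih, ih]

lemma p_smul_iterate_divP (h : TorsCard p E) {n : ℕ} {x : E} (hx : p ^ n • x = 0) (k : ℕ) :
    p • (divP p)^[k + 1] x = (divP p)^[k] x := by
  rw [Function.iterate_succ_apply']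
  exact p_smul_divP h (pow_smul_iterate_divP h hx k)

/-- Every `p^n`-torsion point is the `n`-th component of an element of the Tate module. -/
theorem exists_tate_lift (h : TorsCard p E) {n : ℕ} {x : E} (hx : p ^ n • x = 0) :
    ∃ f : tateSub p E, f.1 n = x := by
  refine ⟨⟨fun k => p ^ (n - k) • (divP p)^[k - n] x, fun k => ⟨?_, ?_⟩⟩, ?_⟩
  · beta_reduce
    rcases le_total k n with hk | hk
    · obtain ⟨j, rfl⟩ := Nat.exists_eq_add_of_le hk
      have h1 : k + j - k = j := by omega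
      have h2 : k - (k + j) = 0 := by omega
      rw [h1, h2, Function.iterate_zero, id, ← mul_smul, ← pow_add]
      exact hx
    · obtain ⟨j, rfl⟩ := Nat.exists_eq_add_of_le hk
      have h1 : n - (n + j) = 0 := by omega
      have h2 : n + j - n = j := by omega
      rw [h1, h2, pow_zero, one_smul]
      exact pow_smul_iterate_divP h hx j
  · beta_reduce
    rcases Nat.lt_or_ge k n with hk | hk
    · obtain ⟨j, rfl⟩ := Nat.exists_eq_add_of_lt hk
      have h1 : k + j + 1 - (k + 1) = j := by omega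
      have h2 : k + 1 - (k + j + 1) = 0 := by omega
      have h3 : k + j + 1 - k = j + 1 := by omega
      have h4 : k - (k + j + 1) = 0 := by omega
      rw [h1, h2, h3, h4, ← mul_smul, ← pow_succ']
    · obtain ⟨j, rfl⟩ := Nat.exists_eq_add_of_le hk
      have h1 : n - (n + j + 1) = 0 := by omega
      have h2 : n + j + 1 - n = j + 1 := by omega
      have h3 : n - (n + j) = 0 := by omega
      have h4 : n + j - n = j := by omega
      rw [h1, h2, h3, h4, pow_zero, one_smul, one_smul]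
      exact p_smul_iterate_divP h hx j
  · show p ^ (n - n) • (divP p)^[n - n] x = x
    rw [Nat.sub_self, pow_zero, one_smul, Function.iterate_zero, id]

end Free

section Basis

variable {p : ℕ} [hp : Fact p.Prime] {E : Type*} [AddCommGroup E]

/-- `E[p]` contains two `𝔽_p`-independent points (elementary form). -/
theorem exists_indep_pair (h : TorsCard p E) :
    ∃ e₁ e₂ : E, p • e₁ = 0 ∧ p • e₂ = 0 ∧
      ∀ a b : ℤ, a • e₁ + b • e₂ = 0 → (p : ℤ) ∣ a ∧ (p : ℤ) ∣ b := by
  have hfin := h.finite 1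
  have hc1 : Nat.card (tors p E 1) = p ^ 2 := by rw [h 1]
  have hp2 : 2 ≤ p := hp.out.two_le
  have hnt : Nontrivial (tors p E 1) := by
    rw [← Finite.one_lt_card_iff_nontrivial, hc1]
    nlinarith
  obtain ⟨e, he⟩ := exists_ne (0 : tors p E 1)
  have he0 : (e : E) ≠ 0 := fun h0 => he (Subtype.ext h0)
  have hpe : p • (e : E) = 0 := by
    have := mem_tors.mp e.2
    rwa [pow_one] at this
  have hord : addOrderOf (e : E) = p := addOrderOf_eq_prime hpe he0
  have hZle : AddSubgroup.zmultiples (e : E) ≤ tors p E 1 := by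
    rw [AddSubgroup.zmultiples_le]
    exact e.2
  have hZcard : Nat.card (AddSubgroup.zmultiples (e : E)) = p := by
    rw [Nat.card_zmultiples, hord]
  obtain ⟨e₂, he₂, he₂Z⟩ : ∃ e₂ : E, e₂ ∈ tors p E 1 ∧ e₂ ∉ AddSubgroup.zmultiples (e : E) := by
    by_contra hcon
    push Not at hcon
    have hle : tors p E 1 ≤ AddSubgroup.zmultiples (e : E) := fun x hx => hcon x hx
    have hfinZ : Finite (AddSubgroup.zmultiples (e : E)) :=
      Nat.finite_of_card_ne_zero (by rw [hZcard]; exact hp.out.ne_zero)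
    have := AddSubgroup.card_le_of_le hle
    rw [hc1, hZcard] at this
    nlinarith
  have hpe₂ : p • e₂ = 0 := by
    have := mem_tors.mp he₂
    rwa [pow_one] at this
  refine ⟨e, e₂, hpe, hpe₂, fun a b hab => ?_⟩
  have hb : (p : ℤ) ∣ b := by
    by_contra hnb
    have hcop : IsCoprime b (p : ℤ) :=
      ((Nat.prime_iff_prime_int.mp hp.out).coprime_iff_not_dvd.mpr hnb).symm
    obtain ⟨u, v, huv⟩ := hcop
    apply he₂Z
    rw [AddSubgroup.mem_zmultiples_iff]
    refine ⟨-(u * a), ?_⟩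
    have h1 : b • e₂ = -(a • (e : E)) := by
      rw [eq_neg_iff_add_eq_zero, add_comm]; exact hab
    have h2 : (p : ℤ) • e₂ = 0 := by rw [natCast_zsmul]; exact hpe₂
    calc (-(u * a)) • (e : E) = u • (-(a • (e : E))) := by
          rw [neg_smul, mul_smul, smul_neg]
      _ = u • (b • e₂) := by rw [h1]
      _ = (u * b) • e₂ + (v * (p : ℤ)) • e₂ := by
          rw [mul_smul, mul_smul v, h2, smul_zero, add_zero]
      _ = e₂ := by rw [← add_smul, huv, one_smul]
  refine ⟨?_, hb⟩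
  obtain ⟨b', rfl⟩ := hb
  have h2 : ((p : ℤ) * b') • e₂ = 0 := by
    rw [mul_comm, mul_smul, natCast_zsmul, hpe₂, smul_zero]
  rw [h2, add_zero] at hab
  have := (addOrderOf_dvd_iff_zsmul_eq_zero (x := (e : E)) (i := a)).mpr hab
  rwa [hord] at this

/-- independence at level `1` implies independence at every level. -/
theorem indep_level (X Y : tateSub p E)
    (hind : ∀ a b : ℤ, a • X.1 1 + b • Y.1 1 = 0 → (p : ℤ) ∣ a ∧ (p : ℤ) ∣ b) :
    ∀ (n : ℕ) (a b : ℤ), a • X.1 n + b • Y.1 n = 0 → (p : ℤ) ^ n ∣ a ∧ (p : ℤ) ^ n ∣ b := by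
  intro n
  induction n with
  | zero => intro a b _; simp
  | succ n ih =>
    intro a b hab
    have hX : p ^ n • X.1 (n + 1) = X.1 1 := by
      have := tateSub_pow_smul_add X 1 n
      rwa [add_comm 1 n] at this
    have hY : p ^ n • Y.1 (n + 1) = Y.1 1 := by
      have := tateSub_pow_smul_add Y 1 n
      rwa [add_comm 1 n] at this
    have h1 : a • X.1 1 + b • Y.1 1 = 0 := by
      have := congrArg (fun z => p ^ n • z) hab
      simp only [smul_add, smul_zero] at this
      rw [smul_comm (p ^ n) a, smul_comm (p ^ n) b, hX, hY] at this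
      exact this
    obtain ⟨⟨a', rfl⟩, ⟨b', rfl⟩⟩ := hind a b h1
    have h2 : a' • X.1 n + b' • Y.1 n = 0 := by
      have hX' : ((p : ℤ) * a') • X.1 (n + 1) = a' • X.1 n := by
        rw [mul_comm, mul_smul, natCast_zsmul, tateSub_p_smul]
      have hY' : ((p : ℤ) * b') • Y.1 (n + 1) = b' • Y.1 n := by
        rw [mul_comm, mul_smul, natCast_zsmul, tateSub_p_smul]
      rw [hX', hY'] at hab
      exact hab
    obtain ⟨ha, hb⟩ := ih a' b' h2
    rw [pow_succ']
    exact ⟨mul_dvd_mul_left _ ha, mul_dvd_mul_left _ hb⟩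

/-- generation at every level, by counting. -/
theorem span_level (h : TorsCard p E) (X Y : tateSub p E)
    (hind : ∀ a b : ℤ, a • X.1 1 + b • Y.1 1 = 0 → (p : ℤ) ∣ a ∧ (p : ℤ) ∣ b)
    (n : ℕ) {x : E} (hx : p ^ n • x = 0) : ∃ a b : ℕ, x = a • X.1 n + b • Y.1 n := by
  have hfin := h.finite n
  let φ : Fin (p ^ n) × Fin (p ^ n) → tors p E n := fun ab =>
    ⟨(ab.1 : ℕ) • X.1 n + (ab.2 : ℕ) • Y.1 n, by
      rw [mem_tors, smul_add, smul_comm, tateSub_pow_smul, smul_zero, smul_comm,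
        tateSub_pow_smul, smul_zero, add_zero]⟩
  have hinj : Function.Injective φ := by
    rintro ⟨a, b⟩ ⟨a', b'⟩ hab
    have h0 : (a : ℕ) • X.1 n + (b : ℕ) • Y.1 n = (a' : ℕ) • X.1 n + (b' : ℕ) • Y.1 n :=
      congrArg Subtype.val hab
    have h1 : (((a : ℕ) : ℤ) - ((a' : ℕ) : ℤ)) • X.1 n + (((b : ℕ) : ℤ) - ((b' : ℕ) : ℤ)) • Y.1 n
        = 0 := by
      rw [sub_smul, sub_smul, natCast_zsmul, natCast_zsmul, natCast_zsmul, natCast_zsmul]
      rw [sub_add_sub_comm, h0, sub_self]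
    obtain ⟨ha, hb⟩ := indep_level X Y hind n _ _ h1
    have key : ∀ c c' : Fin (p ^ n), (p : ℤ) ^ n ∣ ((c : ℕ) : ℤ) - ((c' : ℕ) : ℤ) → c = c' := by
      intro c c' hd
      have h3 : ((c : ℕ) : ℤ) ≡ ((c' : ℕ) : ℤ) [ZMOD ((p ^ n : ℕ) : ℤ)] := by
        rw [Int.modEq_iff_dvd]
        have : ((p ^ n : ℕ) : ℤ) ∣ ((c : ℕ) : ℤ) - ((c' : ℕ) : ℤ) := by
          rw [Nat.cast_pow]; exact hd
        simpa using (dvd_neg.mpr this)
      have h4 : (c : ℕ) ≡ (c' : ℕ) [MOD p ^ n] := Int.natCast_modEq_iff.mp h3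
      exact Fin.ext (Nat.ModEq.eq_of_lt_of_lt h4 c.2 c'.2)
    rw [key a a' ha, key b b' hb]
  have hcard : Nat.card (tors p E n) ≤ Nat.card (Fin (p ^ n) × Fin (p ^ n)) := by
    rw [h n, Nat.card_prod, Nat.card_fin, ← pow_add]
    exact le_of_eq (by ring_nf)
  obtain ⟨⟨a, b⟩, hab⟩ := (hinj.bijective_of_nat_card_le hcard).2 ⟨x, mem_tors.mpr hx⟩
  exact ⟨a, b, (congrArg Subtype.val hab).symm⟩

/-- The linear map `ℤ_[p]² → T_p E` attached to a pair of elements. -/
noncomputable def pairMap (X Y : tateSub p E) : (Fin 2 → ℤ_[p]) →ₗ[ℤ_[p]] tateSub p E :=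
  (LinearMap.proj (R := ℤ_[p]) (φ := fun _ : Fin 2 => ℤ_[p]) 0).smulRight X
    + (LinearMap.proj (R := ℤ_[p]) (φ := fun _ : Fin 2 => ℤ_[p]) 1).smulRight Y

lemma pairMap_apply (X Y : tateSub p E) (v : Fin 2 → ℤ_[p]) :
    pairMap X Y v = v 0 • X + v 1 • Y := rfl

lemma eq_zero_of_appr_eq_zero (z : ℤ_[p]) (hz : ∀ n, z.appr n = 0) : z = 0 := by
  rw [← ext_of_toZModPow]
  intro n
  rw [← appr_cast, hz n, map_zero, Nat.cast_zero]

theorem pairMap_injective (X Y : tateSub p E)
    (hind : ∀ a b : ℤ, a • X.1 1 + b • Y.1 1 = 0 → (p : ℤ) ∣ a ∧ (p : ℤ) ∣ b) :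
    Function.Injective (pairMap X Y) := by
  rw [injective_iff_map_eq_zero]
  intro v hv
  have h1 : ∀ n, (v 0).appr n = 0 ∧ (v 1).appr n = 0 := by
    intro n
    have h2 : ((v 0 • X + v 1 • Y : tateSub p E)).1 n = 0 := by
      rw [← pairMap_apply, hv]; rfl
    rw [tateSub_coe_add, tate_smul_apply, tate_smul_apply] at h2
    have h3 : (((v 0).appr n : ℕ) : ℤ) • X.1 n + (((v 1).appr n : ℕ) : ℤ) • Y.1 n = 0 := by
      rw [natCast_zsmul, natCast_zsmul]; exact h2
    obtain ⟨ha, hb⟩ := indep_level X Y hind n _ _ h3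
    have key : ∀ c : ℕ, c < p ^ n → (p : ℤ) ^ n ∣ (c : ℤ) → c = 0 := by
      intro c hc hd
      have : (p ^ n : ℕ) ∣ c := by
        have h5 : ((p ^ n : ℕ) : ℤ) ∣ (c : ℤ) := by rw [Nat.cast_pow]; exact hd
        exact Int.natCast_dvd_natCast.mp h5
      exact Nat.eq_zero_of_dvd_of_lt this hc
    exact ⟨key _ (appr_lt _ _) ha, key _ (appr_lt _ _) hb⟩
  funext i
  fin_cases i
  · exact eq_zero_of_appr_eq_zero _ fun n => (h1 n).1
  · exact eq_zero_of_appr_eq_zero _ fun n => (h1 n).2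

/-- a compatible sequence of natural numbers defines a `p`-adic integer. -/
lemma exists_padic_of_compat (α : ℕ → ℕ) (hα : ∀ n, (p : ℤ) ^ n ∣ (α (n + 1) : ℤ) - (α n : ℤ)) :
    ∃ z : ℤ_[p], ∀ n, z.appr n ≡ α n [MOD p ^ n] := by
  refine ⟨PadicInt.ofIntSeq _ (isCauSeq_padicNorm_of_pow_dvd_sub (fun n => (α n : ℤ)) p hα),
    fun n => ?_⟩
  have := toZModPow_ofIntSeq_of_pow_dvd_sub (fun n => (α n : ℤ)) p hα n
  rw [← ZMod.natCast_eq_natCast_iff, appr_cast, this]
  simp

theorem pairMap_surjective (h : TorsCard p E) (X Y : tateSub p E)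
    (hind : ∀ a b : ℤ, a • X.1 1 + b • Y.1 1 = 0 → (p : ℤ) ∣ a ∧ (p : ℤ) ∣ b) :
    Function.Surjective (pairMap X Y) := by
  intro f
  choose α β hαβ using fun n => span_level h X Y hind n (tateSub_pow_smul f n)
  have hcompat : ∀ n, (p : ℤ) ^ n ∣ (α (n + 1) : ℤ) - (α n : ℤ) ∧
      (p : ℤ) ^ n ∣ (β (n + 1) : ℤ) - (β n : ℤ) := by
    intro n
    apply indep_level X Y hind n
    rw [sub_smul, sub_smul, natCast_zsmul, natCast_zsmul, natCast_zsmul, natCast_zsmul,
      sub_add_sub_comm, ← hαβ n, sub_eq_zero, ← tateSub_p_smul f n, hαβ (n + 1), smul_add,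
      smul_comm p (α (n + 1)), smul_comm p (β (n + 1)), tateSub_p_smul, tateSub_p_smul]
  obtain ⟨a, ha⟩ := exists_padic_of_compat α fun n => (hcompat n).1
  obtain ⟨b, hb⟩ := exists_padic_of_compat β fun n => (hcompat n).2
  refine ⟨![a, b], tateSub_ext fun n => ?_⟩
  rw [pairMap_apply, tateSub_coe_add, tate_smul_apply, tate_smul_apply]
  simp only [Matrix.cons_val_zero, Matrix.cons_val_one]
  rw [tateSub_nsmul_congr X n (ha n), tateSub_nsmul_congr Y n (hb n), ← hαβ n]

/-- **The Tate module is free of rank 2**: an explicit linear equivalence with `ℤ_[p]²`. -/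
theorem exists_tateBasis (h : TorsCard p E) :
    ∃ (X Y : tateSub p E), Function.Bijective (pairMap X Y) ∧
      ∀ a b : ℤ, a • X.1 1 + b • Y.1 1 = 0 → (p : ℤ) ∣ a ∧ (p : ℤ) ∣ b := by
  obtain ⟨e₁, e₂, he₁, he₂, hind⟩ := exists_indep_pair h
  obtain ⟨X, hX⟩ := exists_tate_lift h (n := 1) (x := e₁) (by rwa [pow_one])
  obtain ⟨Y, hY⟩ := exists_tate_lift h (n := 1) (x := e₂) (by rwa [pow_one])
  have hind' : ∀ a b : ℤ, a • X.1 1 + b • Y.1 1 = 0 → (p : ℤ) ∣ a ∧ (p : ℤ) ∣ b := by
    rw [hX, hY]; exact hind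
  exact ⟨X, Y, ⟨pairMap_injective X Y hind', pairMap_surjective h X Y hind'⟩, hind'⟩

/-- a linear equivalence `ℤ_[p]² ≃ T_p E`. -/
noncomputable def tateEquiv (h : TorsCard p E) : (Fin 2 → ℤ_[p]) ≃ₗ[ℤ_[p]] tateSub p E :=
  LinearEquiv.ofBijective (pairMap (exists_tateBasis h).choose (exists_tateBasis h).choose_spec.choose)
    (exists_tateBasis h).choose_spec.choose_spec.1

theorem tate_free (h : TorsCard p E) : Module.Free ℤ_[p] (tateSub p E) :=
  Module.Free.of_equiv (tateEquiv h)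

theorem tate_finite (h : TorsCard p E) : Module.Finite ℤ_[p] (tateSub p E) :=
  Module.Finite.equiv (tateEquiv h)

theorem tate_finrank (h : TorsCard p E) : Module.finrank ℤ_[p] (tateSub p E) = 2 := by
  rw [← (tateEquiv h).finrank_eq, Module.finrank_fin_fun]

end Basis

end Fermat.Agent.S59.H360
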