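import Mathlib

/-!
# S59, E-side (helper360): the abstract Tate module `T_p E = lim E[p^n]`

`E` is any additive commutative group.  `tateSub p E` is the group of compatible sequences
`f : ℕ → E`, `p ^ n • f n = 0`, `p • f (n + 1) = f n`, with its natural `ℤ_[p]`-module structure
(`(z • f) n = z.appr n • f n`).  Everything here is Mathlib-only.
-/

set_option autoImplicit false
set_option linter.unusedSectionVars false

namespace Fermat.Agent.S59.H360

open PadicInt

section Basic

variable (p : ℕ) [hp : Fact p.Prime] (E : Type*) [AddCommGroup E]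

/-- The Tate module `T_p E = lim E[p^n]` as the group of compatible sequences. -/
def tateSub : AddSubgroup (ℕ → E) where
  carrier := {f | ∀ n, p ^ n • f n = 0 ∧ p • f (n + 1) = f n}
  zero_mem' := fun n => by simp
  add_mem' := fun {f g} hf hg n => by
    constructor
    · simp only [Pi.add_apply, smul_add, (hf n).1, (hg n).1, add_zero]
    · simp only [Pi.add_apply, smul_add, (hf n).2, (hg n).2]
  neg_mem' := fun {f} hf n => by
    constructor
    · simp only [Pi.neg_apply, smul_neg, (hf n).1, neg_zero]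
    · simp only [Pi.neg_apply, smul_neg, (hf n).2]

variable {p E}

lemma mem_tateSub {f : ℕ → E} :
    f ∈ tateSub p E ↔ ∀ n, p ^ n • f n = 0 ∧ p • f (n + 1) = f n := Iff.rfl

lemma tateSub_pow_smul (f : tateSub p E) (n : ℕ) : p ^ n • f.1 n = 0 := (f.2 n).1

lemma tateSub_p_smul (f : tateSub p E) (n : ℕ) : p • f.1 (n + 1) = f.1 n := (f.2 n).2

lemma tateSub_pow_smul_add (f : tateSub p E) (n k : ℕ) : p ^ k • f.1 (n + k) = f.1 n := by
  induction k with
  | zero => simp
  | succ k ih =>
    rw [pow_succ, mul_smul, ← add_assoc, tateSub_p_smul, ih]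

lemma tateSub_zero_apply (f : tateSub p E) : f.1 0 = 0 := by
  simpa using tateSub_pow_smul f 0

@[simp] lemma tateSub_coe_add (f g : tateSub p E) (n : ℕ) : (f + g).1 n = f.1 n + g.1 n := rfl

@[simp] lemma tateSub_coe_zero (n : ℕ) : (0 : tateSub p E).1 n = 0 := rfl

@[simp] lemma tateSub_coe_neg (f : tateSub p E) (n : ℕ) : (-f).1 n = -f.1 n := rfl

@[simp] lemma tateSub_coe_sub (f g : tateSub p E) (n : ℕ) : (f - g).1 n = f.1 n - g.1 n := rfl

lemma tateSub_ext {f g : tateSub p E} (h : ∀ n, f.1 n = g.1 n) : f = g :=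
  Subtype.ext (funext h)

/-- `a • x` only depends on `a` modulo `m` when `m • x = 0`. -/
lemma nsmul_eq_of_modEq {x : E} {m a b : ℕ} (hx : m • x = 0) (h : a ≡ b [MOD m]) :
    a • x = b • x := by
  have key : ∀ c : ℕ, c • x = (c % m) • x := fun c => by
    conv_lhs => rw [← Nat.div_add_mod c m, add_smul, mul_comm, mul_smul, hx, smul_zero, zero_add]
  rw [key a, key b, h]

lemma tateSub_nsmul_congr (f : tateSub p E) (n : ℕ) {a b : ℕ} (h : a ≡ b [MOD p ^ n]) :
    a • f.1 n = b • f.1 n :=
  nsmul_eq_of_modEq (tateSub_pow_smul f n) h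

/-! ### congruences for `PadicInt.appr` -/

lemma appr_cast (z : ℤ_[p]) (n : ℕ) : ((z.appr n : ℕ) : ZMod (p ^ n)) = toZModPow n z := rfl

lemma appr_succ_modEq (z : ℤ_[p]) (n : ℕ) : z.appr (n + 1) ≡ z.appr n [MOD p ^ n] :=
  ((Nat.modEq_iff_dvd' (appr_mono z (Nat.le_succ n))).mpr
    (dvd_appr_sub_appr z n (n + 1) (Nat.le_succ n))).symm

lemma appr_add_modEq (z w : ℤ_[p]) (n : ℕ) :
    (z + w).appr n ≡ z.appr n + w.appr n [MOD p ^ n] := by
  rw [← ZMod.natCast_eq_natCast_iff]
  push_cast
  rw [appr_cast, appr_cast, appr_cast, map_add]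

lemma appr_mul_modEq (z w : ℤ_[p]) (n : ℕ) :
    (z * w).appr n ≡ z.appr n * w.appr n [MOD p ^ n] := by
  rw [← ZMod.natCast_eq_natCast_iff]
  push_cast
  rw [appr_cast, appr_cast, appr_cast, map_mul]

lemma appr_one_modEq (n : ℕ) : (1 : ℤ_[p]).appr n ≡ 1 [MOD p ^ n] := by
  rw [← ZMod.natCast_eq_natCast_iff]
  push_cast
  rw [appr_cast, map_one]

lemma appr_zero_modEq (n : ℕ) : (0 : ℤ_[p]).appr n ≡ 0 [MOD p ^ n] := by
  rw [← ZMod.natCast_eq_natCast_iff]
  push_cast
  rw [appr_cast, map_zero]

lemma appr_natCast_modEq (a n : ℕ) : (a : ℤ_[p]).appr n ≡ a [MOD p ^ n] := by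
  rw [← ZMod.natCast_eq_natCast_iff]
  rw [appr_cast, map_natCast]

/-! ### the `ℤ_[p]`-module structure -/

noncomputable instance instSMulTate : SMul ℤ_[p] (tateSub p E) where
  smul z f := ⟨fun n => z.appr n • f.1 n, fun n =>
    ⟨by rw [smul_comm, tateSub_pow_smul, smul_zero],
     by rw [smul_comm, tateSub_p_smul]; exact tateSub_nsmul_congr f n (appr_succ_modEq z n)⟩⟩

lemma tate_smul_apply (z : ℤ_[p]) (f : tateSub p E) (n : ℕ) :
    (z • f).1 n = z.appr n • f.1 n := rfl

noncomputable instance instModuleTate : Module ℤ_[p] (tateSub p E) where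
  one_smul f := tateSub_ext fun n => by
    rw [tate_smul_apply, tateSub_nsmul_congr f n (appr_one_modEq n), one_smul]
  mul_smul z w f := tateSub_ext fun n => by
    rw [tate_smul_apply, tate_smul_apply, tate_smul_apply,
      tateSub_nsmul_congr f n (appr_mul_modEq z w n), mul_smul]
  smul_zero z := tateSub_ext fun n => by
    rw [tate_smul_apply]; simp
  smul_add z f g := tateSub_ext fun n => by
    simp only [tate_smul_apply, tateSub_coe_add, smul_add]
  add_smul z w f := tateSub_ext fun n => by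
    rw [tateSub_coe_add, tate_smul_apply, tate_smul_apply, tate_smul_apply,
      tateSub_nsmul_congr f n (appr_add_modEq z w n), add_smul]
  zero_smul f := tateSub_ext fun n => by
    rw [tate_smul_apply, tateSub_nsmul_congr f n (appr_zero_modEq n), zero_smul]; rfl

lemma tate_natCast_smul_apply (a : ℕ) (f : tateSub p E) (n : ℕ) :
    ((a : ℤ_[p]) • f).1 n = a • f.1 n := by
  rw [tate_smul_apply, tateSub_nsmul_congr f n (appr_natCast_modEq a n)]

/-- The projection `T_p E → E[p^n]`. -/
def tateProj (n : ℕ) : tateSub p E →+ E where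
  toFun f := f.1 n
  map_zero' := rfl
  map_add' _ _ := rfl

@[simp] lemma tateProj_apply (n : ℕ) (f : tateSub p E) : tateProj n f = f.1 n := rfl

/-- The shift `f ↦ (k ↦ f (k + n))`, which divides by `p ^ n` the sequences vanishing at `n`. -/
def tateShift (n : ℕ) (f : tateSub p E) (h : f.1 n = 0) : tateSub p E :=
  ⟨fun k => f.1 (k + n), fun k =>
    ⟨by
      have h1 := tateSub_pow_smul_add f n k
      rw [add_comm n k, h] at h1
      exact h1,
     by
      have := tateSub_p_smul f (k + n)
      rwa [show k + n + 1 = k + 1 + n by ring] at this⟩⟩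

lemma pow_smul_tateShift (n : ℕ) (f : tateSub p E) (h : f.1 n = 0) :
    ((p : ℤ_[p]) ^ n) • tateShift n f h = f := by
  refine tateSub_ext fun k => ?_
  rw [← Nat.cast_pow, tate_natCast_smul_apply]
  show p ^ n • f.1 (k + n) = f.1 k
  exact tateSub_pow_smul_add f k n

/-- The kernel of the projection to level `n` is `p ^ n • T`. -/
theorem tateProj_eq_zero_iff (n : ℕ) (f : tateSub p E) :
    f.1 n = 0 ↔ ∃ g : tateSub p E, ((p : ℤ_[p]) ^ n) • g = f := by
  constructor
  · intro h
    exact ⟨tateShift n f h, pow_smul_tateShift n f h⟩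
  · rintro ⟨g, rfl⟩
    rw [← Nat.cast_pow, tate_natCast_smul_apply, tateSub_pow_smul]

end Basic

end Fermat.Agent.S59.H360
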